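import Fermat.Agent.S15.Outer.NP.Main

/-! # S15 / OUTER, LEAF NP-TYPE (pure Mathlib): the type (`∞` or `0`) is preserved by `T_m` -/

set_option autoImplicit false

namespace Fermat.Agent.S15.Outer

variable {L Γ₀ : Type*} [Field L] [LinearOrderedCommGroupWithZero Γ₀] (v : Valuation L Γ₀)

omit [Field L] in
theorem type_transfer_pow_inj {g : Γ₀} (hg : 1 < g) {a b : ℕ} (h : g ^ a = g ^ b) : a = b :=
  (pow_right_strictMono₀ hg).injective h

omit [Field L] in
theorem type_transfer_pow_one {g : Γ₀} (hg : 1 < g) {a : ℕ} (h : g ^ a = g) : a = 1 :=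
  type_transfer_pow_inj hg (h.trans (pow_one g).symm)

omit [Field L] in
theorem type_transfer_swap (g : Γ₀) (a b : ℕ) : (g ^ a) ^ b = (g ^ b) ^ a := by
  rw [← pow_mul, ← pow_mul, mul_comm]

/-- (arithmetic in the value group).  Put `γ = v J1`, `δ = v Jpm`.
From `h1.np`, `h2.np`, `h3.np`, `h4.np` (all four values are `> 1`:
`ModRel.one_lt_val`, `ModRel.symm`) one gets `δ^(p m) = γ^(p^a m^b)` and `δ^(p m) = γ^(m^c p^d)` with `a, b, c, d ∈ {0, 2}`;
`a = 2` iff `v Jp = γ^p`, `d = 2` iff `v Jpm = (v Jm)^p`.  `γ > 1` gives `p^a m^b = m^c p^d`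
(strict monotonicity of `n ↦ γ^n`), hence `a = d` because `p ≠ m` are primes. 16 cases.
NB both alternatives `v Jp = γ^p` and `v Jp ^ p = γ` cannot hold together (`γ^(p^2) = γ`). -/
theorem type_transfer {p m : ℕ} (hp : p.Prime) (hm : m.Prime) (hpm : p ≠ m) {J1 Jm Jp Jpm : L}
    (h1 : ModRel m J1 Jm) (h2 : ModRel m Jp Jpm) (h3 : ModRel p J1 Jp) (h4 : ModRel p Jm Jpm)
    (hJm : 1 < v Jm) :
    1 < v J1 ∧ (v Jpm = v Jm ^ p → v Jp = v J1 ^ p) ∧ (v Jpm ^ p = v Jm → v Jp ^ p = v J1) := by
  have hγ : 1 < v J1 := h1.one_lt_val v hJm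
  have hπ : 1 < v Jp := h3.symm.one_lt_val v hγ
  have hp2 := hp.two_le
  have hm2 := hm.two_le
  have n1 := h1.np v hm2 hγ
  have n2 := h2.np v hm2 hπ
  have n3 := h3.np v hp2 hγ
  have hpp : 4 ≤ p * p := Nat.mul_le_mul hp2 hp2
  have hmm : 4 ≤ m * m := Nat.mul_le_mul hm2 hm2
  generalize v J1 = γ at *
  generalize v Jm = μ at *
  generalize v Jp = π at *
  generalize v Jpm = δ at *
  refine ⟨hγ, ?_, ?_⟩
  · intro hδ
    rcases n3 with n3 | n3
    · exact n3
    · exfalso
      subst n3
      subst hδ
      rcases n1 with n1 | n1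
      · subst n1
        rcases n2 with n2 | n2
        · rw [← pow_mul, ← pow_mul] at n2
          have h5 := type_transfer_pow_inj hπ n2
          have h6 : p * m * p = (p * p) * m := by ring
          nlinarith
        · rw [← pow_mul, ← pow_mul, ← pow_mul] at n2
          have h5 := type_transfer_pow_one hπ n2
          have h6 : p * m * p * m = (p * p) * (m * m) := by ring
          nlinarith
      · rcases n2 with n2 | n2
        · have h5 : (π ^ p) ^ p = (π ^ m) ^ m := by
            rw [← n1, ← n2, type_transfer_swap]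
          rw [← pow_mul, ← pow_mul] at h5
          exact hpm (Nat.mul_self_inj.mp (type_transfer_pow_inj hπ h5))
        · rw [type_transfer_swap, n1, ← pow_mul] at n2
          have h5 := type_transfer_pow_one hπ n2
          omega
  · intro hδ
    rcases n3 with n3 | n3
    · exfalso
      subst n3
      subst hδ
      rcases n1 with n1 | n1
      · rcases n2 with n2 | n2
        · subst n2
          rw [← pow_mul, ← pow_mul] at n1
          have h5 := type_transfer_pow_inj hγ n1
          have h6 : p * m * p = (p * p) * m := by ring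
          nlinarith
        · have h5 : (γ ^ m) ^ m = (γ ^ p) ^ p := by
            rw [← n1, ← n2, type_transfer_swap]
          rw [← pow_mul, ← pow_mul] at h5
          exact hpm (Nat.mul_self_inj.mp (type_transfer_pow_inj hγ h5)).symm
      · rcases n2 with n2 | n2
        · subst n2
          rw [← pow_mul, ← pow_mul, ← pow_mul] at n1
          have h5 := type_transfer_pow_one hγ n1
          have h6 : p * m * p * m = (p * p) * (m * m) := by ring
          nlinarith
        · rw [type_transfer_swap, n2, ← pow_mul] at n1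
          have h5 := type_transfer_pow_one hγ n1
          omega
    · exact n3

end Fermat.Agent.S15.Outer
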