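import Mathlib

/-!
# S15 / OUTER: the Newton polygon of the modular equation (PURE MATHLIB): definitions

`ModRel e X Y`: `X, Y` satisfy a polynomial relation with the shape of the modular equation `Φ_e` (`e` prime):
`Y^(e+1) ± X^(e+1) ± X^e Y^e + ∑_{i,k ≤ e, (i,k) ≠ (e,e)} c_{ik} X^i Y^k = 0`, `c_{ik} ∈ ℤ`.
-/

set_option autoImplicit false

namespace Fermat.Agent.S15.Outer

/-- the shape of the modular equation. -/
def ModRel {L : Type*} [CommRing L] (e : ℕ) (X Y : L) : Prop :=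
  ∃ (u0 u1 : ℤ) (c : ℕ → ℕ → ℤ), IsUnit u0 ∧ IsUnit u1 ∧ c e e = 0 ∧
    Y ^ (e + 1) + (u0 : L) * X ^ (e + 1) + (u1 : L) * (X ^ e * Y ^ e)
      + ∑ i ∈ Finset.range (e + 1), ∑ k ∈ Finset.range (e + 1), (c i k : L) * (X ^ i * Y ^ k) = 0

/-- `v (u : L) = 1` for `u = ± 1`. -/
theorem val_intCast_unit {L Γ₀ : Type*} [Field L] [LinearOrderedCommGroupWithZero Γ₀]
    (v : Valuation L Γ₀) {u : ℤ} (hu : IsUnit u) : v (u : L) = 1 := by
  rcases Int.isUnit_iff.mp hu with rfl | rfl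
  · simp
  · simp

end Fermat.Agent.S15.Outer
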