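import Fermat.Agent.S15.Outer.NP.Defs

/-! # S15 / OUTER, LEAF NP-LE (pure Mathlib): integrality -/

set_option autoImplicit false

namespace Fermat.Agent.S15.Outer

variable {L Γ₀ : Type*} [Field L] [LinearOrderedCommGroupWithZero Γ₀] (v : Valuation L Γ₀)

/-- `v (n : L) ≤ 1`. (`Int.induction_on` with `Valuation.map_add_le`, `Valuation.map_neg`, `Valuation.map_one`; or a Mathlib
lemma if there is one.) -/
theorem val_intCast_le_one (n : ℤ) : v (n : L) ≤ 1 := by
  have hnat : ∀ m : ℕ, v (m : L) ≤ 1 := by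
    intro m
    induction m with
    | zero => simp
    | succ m ih =>
      rw [Nat.cast_succ]
      exact v.map_add_le ih (le_of_eq v.map_one)
  rcases Int.eq_nat_or_neg n with ⟨m, rfl | rfl⟩
  · rw [Int.cast_natCast]
    exact hnat m
  · rw [Int.cast_neg, Int.cast_natCast, Valuation.map_neg]
    exact hnat m

/-- If `1 < v Y` then `v (Y^(e+1))` is strictly bigger than the value of every other
term (`v X ≤ 1`, exponent of `Y` at most `e`, integer coefficients have value `≤ 1`), so the sum cannot be `0`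
(`Valuation.map_add_eq_of_lt_left`, `Valuation.map_sum_lt`). -/
theorem ModRel.val_le_one {e : ℕ} {X Y : L} (h : ModRel e X Y) (hX : v X ≤ 1) : v Y ≤ 1 := by
  by_contra hY
  rw [not_le] at hY
  obtain ⟨u0, u1, c, hu0, hu1, -, hrel⟩ := h
  have hXp : ∀ n : ℕ, v X ^ n ≤ 1 := fun n => pow_le_one' hX n
  have hlt : ∀ k : ℕ, k ≤ e → v Y ^ k < v Y ^ (e + 1) := fun k hk =>
    pow_lt_pow_right₀ hY (by omega)
  have hne : v Y ^ (e + 1) ≠ 0 := (lt_of_le_of_lt zero_le' (hlt 0 (Nat.zero_le e))).ne'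
  have hterm : ∀ (a : ℤ) (i k : ℕ), k ≤ e → v ((a : L) * (X ^ i * Y ^ k)) < v Y ^ (e + 1) := by
    intro a i k hk
    rw [map_mul, map_mul, map_pow, map_pow]
    refine lt_of_le_of_lt ?_ (hlt k hk)
    calc v (a : L) * (v X ^ i * v Y ^ k) ≤ 1 * (1 * v Y ^ k) :=
          mul_le_mul' (val_intCast_le_one v a) (mul_le_mul' (hXp i) le_rfl)
      _ = v Y ^ k := by rw [one_mul, one_mul]
  have h1 : v ((u0 : L) * X ^ (e + 1)) < v Y ^ (e + 1) := by
    have := hterm u0 (e + 1) 0 (Nat.zero_le e)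
    rwa [pow_zero, mul_one] at this
  have h2 : v ((u1 : L) * (X ^ e * Y ^ e)) < v Y ^ (e + 1) := hterm u1 e e le_rfl
  have h3 : v (∑ i ∈ Finset.range (e + 1), ∑ k ∈ Finset.range (e + 1),
      (c i k : L) * (X ^ i * Y ^ k)) < v Y ^ (e + 1) := by
    refine v.map_sum_lt hne fun i _ => v.map_sum_lt hne fun k hk => ?_
    exact hterm _ i k (by have := Finset.mem_range.1 hk; omega)
  have h4 : Y ^ (e + 1) = -((u0 : L) * X ^ (e + 1) + (u1 : L) * (X ^ e * Y ^ e)
      + ∑ i ∈ Finset.range (e + 1), ∑ k ∈ Finset.range (e + 1), (c i k : L) * (X ^ i * Y ^ k)) := by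
    linear_combination hrel
  have h5 := v.map_add_lt (v.map_add_lt h1 h2) h3
  rw [← Valuation.map_neg, ← h4, map_pow] at h5
  exact lt_irrefl _ h5

theorem ModRel.one_lt_val {e : ℕ} {X Y : L} (h : ModRel e X Y) (hY : 1 < v Y) : 1 < v X := by
  by_contra hX
  exact absurd (h.val_le_one v (not_lt.mp hX)) (not_le.mpr hY)

end Fermat.Agent.S15.Outer
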