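import Fermat.Agent.S15.Outer.NP.Map
import Fermat.Agent.S15.Outer.NP.Le

/-! # S15 / OUTER, LEAF NP-MAIN (pure Mathlib): the Newton polygon -/

set_option autoImplicit false

namespace Fermat.Agent.S15.Outer

variable {L Γ₀ : Type*} [Field L] [LinearOrderedCommGroupWithZero Γ₀] (v : Valuation L Γ₀)

/-- `x := v X > 1`, `y := v Y > 1` (`h.symm.one_lt_val`).  Every term `c_{ik} X^i Y^k`
(`i, k ≤ e`, `(i,k) ≠ (e,e)`; the term `(e,e)` vanishes as `c e e = 0`) has value `< x^e y^e`.  So among the three values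
`y^(e+1)`, `x^(e+1)`, `x^e y^e` the maximum is attained twice (otherwise the sum has the value of the strict maximum, `≠ 0`).
* `y^(e+1) = x^e y^e` gives `y = x^e`;  * `x^(e+1) = x^e y^e` gives `x = y^e`;
* `x^(e+1) = y^(e+1) ≥ x^e y^e`: `x = y` (`pow_left_injective`), so `x^(e+1) ≥ x^(2e)`, impossible for `e ≥ 2`, `x > 1`. -/
theorem ModRel.np {e : ℕ} (he : 2 ≤ e) {X Y : L} (h : ModRel e X Y) (hX : 1 < v X) :
    v Y = v X ^ e ∨ v Y ^ e = v X := by
  have hY : 1 < v Y := h.symm.one_lt_val v hX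
  obtain ⟨u0, u1, c, hu0, hu1, hc, hrel⟩ := h
  have hx0 : v X ≠ 0 := (zero_lt_one.trans hX).ne'
  have hy0 : v Y ≠ 0 := (zero_lt_one.trans hY).ne'
  have hA : v (Y ^ (e + 1)) = v Y ^ (e + 1) := map_pow _ _ _
  have hB : v ((u0 : L) * X ^ (e + 1)) = v X ^ (e + 1) := by
    rw [map_mul, val_intCast_unit v hu0, one_mul, map_pow]
  have hC : v ((u1 : L) * (X ^ e * Y ^ e)) = v X ^ e * v Y ^ e := by
    rw [map_mul, val_intCast_unit v hu1, one_mul, map_mul, map_pow, map_pow]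
  have hc0 : v X ^ e * v Y ^ e ≠ 0 := mul_ne_zero (pow_ne_zero _ hx0) (pow_ne_zero _ hy0)
  have hSlt : v (∑ i ∈ Finset.range (e + 1), ∑ k ∈ Finset.range (e + 1),
      (c i k : L) * (X ^ i * Y ^ k)) < v X ^ e * v Y ^ e := by
    refine Valuation.map_sum_lt v hc0 fun i hi => Valuation.map_sum_lt v hc0 fun k hk => ?_
    rw [Finset.mem_range, Nat.lt_succ_iff] at hi hk
    by_cases hik : i = e ∧ k = e
    · rw [hik.1, hik.2, hc, Int.cast_zero, zero_mul, map_zero]
      exact zero_lt_iff.2 hc0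
    · rw [map_mul, map_mul, map_pow, map_pow]
      have h1 : v (c i k : L) ≤ 1 := val_intCast_le_one v _
      have h2 : v X ^ i * v Y ^ k < v X ^ e * v Y ^ e := by
        rcases hi.lt_or_eq with hi' | hi'
        · exact mul_lt_mul_of_lt_of_le_of_nonneg_of_pos (pow_lt_pow_right₀ hX hi')
            (pow_le_pow_right₀ hY.le hk) zero_le (zero_lt_iff.2 (pow_ne_zero _ hy0))
        · have hk' : k < e := lt_of_le_of_ne hk (fun hk' => hik ⟨hi', hk'⟩)
          exact mul_lt_mul_of_le_of_lt_of_nonneg_of_pos (pow_le_pow_right₀ hX.le hi)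
            (pow_lt_pow_right₀ hY hk') zero_le (zero_lt_iff.2 (pow_ne_zero _ hx0))
      calc v (c i k : L) * (v X ^ i * v Y ^ k) ≤ 1 * (v X ^ i * v Y ^ k) :=
            mul_le_mul_of_nonneg_right h1 zero_le
        _ = v X ^ i * v Y ^ k := one_mul _
        _ < _ := h2
  have hC' : v ((u1 : L) * (X ^ e * Y ^ e) + ∑ i ∈ Finset.range (e + 1),
      ∑ k ∈ Finset.range (e + 1), (c i k : L) * (X ^ i * Y ^ k)) = v X ^ e * v Y ^ e := by
    rw [Valuation.map_add_eq_of_lt_left v (by rw [hC]; exact hSlt), hC]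
  have hsum : Y ^ (e + 1) + (u0 : L) * X ^ (e + 1) = -((u1 : L) * (X ^ e * Y ^ e) +
      ∑ i ∈ Finset.range (e + 1), ∑ k ∈ Finset.range (e + 1), (c i k : L) * (X ^ i * Y ^ k)) := by
    linear_combination hrel
  have hAB : v (Y ^ (e + 1) + (u0 : L) * X ^ (e + 1)) = v X ^ e * v Y ^ e := by
    rw [hsum, Valuation.map_neg, hC']
  by_cases hab : v Y ^ (e + 1) = v X ^ (e + 1)
  · exfalso
    have hxy : v Y = v X := (pow_left_inj₀ zero_le zero_le (Nat.succ_ne_zero e)).1 hab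
    have h1 := Valuation.map_add v (Y ^ (e + 1)) ((u0 : L) * X ^ (e + 1))
    rw [hAB, hA, hB, hab, max_self, hxy, ← pow_add] at h1
    exact absurd h1 (not_le.2 (pow_lt_pow_right₀ hX (by omega)))
  · have h1 := Valuation.map_add_of_distinct_val v (x := Y ^ (e + 1))
      (y := (u0 : L) * X ^ (e + 1)) (by rw [hA, hB]; exact hab)
    rw [hAB, hA, hB] at h1
    rcases max_choice (v Y ^ (e + 1)) (v X ^ (e + 1)) with h2 | h2
    · left
      rw [h2, pow_succ, mul_comm] at h1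
      exact (mul_left_cancel₀ (pow_ne_zero _ hy0) h1).symm
    · right
      rw [h2, pow_succ] at h1
      exact mul_left_cancel₀ (pow_ne_zero _ hx0) h1

end Fermat.Agent.S15.Outer
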