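import Fermat.Agent.S15.Outer.NP.Defs

/-! # S15 / OUTER, LEAF NP-MAP (pure Mathlib): functoriality and symmetry of `ModRel` -/

set_option autoImplicit false

namespace Fermat.Agent.S15.Outer

theorem ModRel_map_expr {L L' : Type*} [CommRing L] [CommRing L'] (f : L →+* L') (e : ℕ) (X Y : L)
    (u0 u1 : ℤ) (c : ℕ → ℕ → ℤ) :
    f (Y ^ (e + 1) + (u0 : L) * X ^ (e + 1) + (u1 : L) * (X ^ e * Y ^ e)
      + ∑ i ∈ Finset.range (e + 1), ∑ k ∈ Finset.range (e + 1), (c i k : L) * (X ^ i * Y ^ k))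
    = f Y ^ (e + 1) + (u0 : L') * f X ^ (e + 1) + (u1 : L') * (f X ^ e * f Y ^ e)
      + ∑ i ∈ Finset.range (e + 1), ∑ k ∈ Finset.range (e + 1),
        (c i k : L') * (f X ^ i * f Y ^ k) := by
  simp only [map_sum, map_mul, map_pow, map_add, map_intCast]

/-- `simp [map_sum, map_mul, map_pow, map_add, map_intCast]` on `congrArg f`. -/
theorem ModRel.map {L L' : Type*} [CommRing L] [CommRing L'] (f : L →+* L') {e : ℕ} {X Y : L}
    (h : ModRel e X Y) : ModRel e (f X) (f Y) := by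
  obtain ⟨u0, u1, c, h0, h1, hc, h⟩ := h
  refine ⟨u0, u1, c, h0, h1, hc, ?_⟩
  rw [← ModRel_map_expr, h, map_zero]

/-- Same computation, then `hf`. -/
theorem ModRel.of_map {L L' : Type*} [CommRing L] [CommRing L'] (f : L →+* L')
    (hf : Function.Injective f) {e : ℕ} {X Y : L} (h : ModRel e (f X) (f Y)) : ModRel e X Y := by
  obtain ⟨u0, u1, c, h0, h1, hc, h⟩ := h
  refine ⟨u0, u1, c, h0, h1, hc, hf ?_⟩
  rw [ModRel_map_expr, h, map_zero]

/-- Multiply the relation by `u0` (`u0 * u0 = 1` since `IsUnit u0` in `ℤ`: `Int.isUnit_iff`);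
new data `u0' = u0`, `u1' = u0 * u1`, `c' i k = u0 * c k i` (`Finset.sum_comm`). -/
theorem ModRel.symm {L : Type*} [CommRing L] {e : ℕ} {X Y : L} (h : ModRel e X Y) :
    ModRel e Y X := by
  obtain ⟨u0, u1, c, h0, h1, hc, h⟩ := h
  have huu : (u0 : L) * (u0 : L) = 1 := by
    rcases Int.isUnit_iff.mp h0 with rfl | rfl <;> simp
  refine ⟨u0, u0 * u1, fun i k => u0 * c k i, h0, h0.mul h1, by simp [hc], ?_⟩
  have hsum : ∑ i ∈ Finset.range (e + 1), ∑ k ∈ Finset.range (e + 1),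
      (((u0 * c k i : ℤ) : L)) * (Y ^ i * X ^ k)
      = (u0 : L) * ∑ i ∈ Finset.range (e + 1), ∑ k ∈ Finset.range (e + 1),
        (c i k : L) * (X ^ i * Y ^ k) := by
    rw [Finset.sum_comm, Finset.mul_sum]
    refine Finset.sum_congr rfl fun i _ => ?_
    rw [Finset.mul_sum]
    refine Finset.sum_congr rfl fun k _ => ?_
    push_cast
    ring
  rw [hsum]
  push_cast
  linear_combination (u0 : L) * h - X ^ (e + 1) * huu

end Fermat.Agent.S15.Outer
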